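/-
S56 / Euler / Cyc / Defs : objects of (CYC) `Base0 ⟹ Base` (owner helper56).  sorry-free.

`Ω = G ⧸ N`, `τ = t N`.  For an `𝔽_p`-space `Z` with an operator `B`:
* `TB N t B`  : `(T_B φ)(w) = B (φ (w τ))` on `Ω → Z`;
* `W N t B`   : the representation of `G` (left translations only) on `ker (T_B - 1) = {φ | B (φ (w τ)) = φ w}`;
* `shift p m` : the cyclic shift `(S c)(i) = c (i - 1)` on `ZMod m → 𝔽_p`  (the "regular" pair);
* `piz B z`   : `c ↦ ∑ i, c i • B ^ i z`, `(ZMod m → 𝔽_p, S) → (Z, B)`.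
-/
import Fermat.Agent.S56.Euler.Defs
import Fermat.Agent.S56.EA.Main

set_option autoImplicit false

noncomputable section

namespace Fermat.Agent.S56.Euler.Cyc

open Fermat.Agent.S55 Module Polynomial

variable {p : ℕ} [Fact p.Prime] {G : Type} [Group G] (N : Subgroup G) [N.Normal] (t : G)
variable {Z : Type} [AddCommGroup Z] [Module (ZMod p) Z]

/-- `(T_B φ)(w) = B (φ (w t))`. -/
def TB (B : Z →ₗ[ZMod p] Z) : (G ⧸ N → Z) →ₗ[ZMod p] (G ⧸ N → Z) :=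
  (B.compLeft (G ⧸ N)) ∘ₗ rt (ZMod p) Z N t

@[simp] theorem TB_apply (B : Z →ₗ[ZMod p] Z) (φ : G ⧸ N → Z) (w : G ⧸ N) :
    TB N t B φ w = B (φ (w * (t : G ⧸ N))) := rfl

theorem TB_comm (B : Z →ₗ[ZMod p] Z) (g : G) (φ : G ⧸ N → Z) :
    (TB N t B - 1) (Fun (Representation.trivial (ZMod p) G Z) (G ⧸ N) g φ) =
      Fun (Representation.trivial (ZMod p) G Z) (G ⧸ N) g ((TB N t B - 1) φ) := by
  ext w
  simp [smul_mul_coe]

/-- `W(Z,B)`. -/
abbrev W (B : Z →ₗ[ZMod p] Z) : Representation (ZMod p) G ↥(LinearMap.ker (TB N t B - 1)) :=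
  kerRep (ρB := Fun (Representation.trivial (ZMod p) G Z) (G ⧸ N))
    (ρC := Fun (Representation.trivial (ZMod p) G Z) (G ⧸ N)) (TB N t B - 1) (TB_comm N t B)

theorem mem_W_iff (B : Z →ₗ[ZMod p] Z) (φ : G ⧸ N → Z) :
    φ ∈ LinearMap.ker (TB N t B - 1) ↔ ∀ w, B (φ (w * (t : G ⧸ N))) = φ w := by
  rw [LinearMap.mem_ker]
  constructor
  · intro h w
    have := congrFun h w
    simpa [sub_eq_zero] using this
  · intro h
    ext w
    simp [h w]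

@[simp] theorem W_apply_coe (B : Z →ₗ[ZMod p] Z) (g : G) (φ : ↥(LinearMap.ker (TB N t B - 1)))
    (w : G ⧸ N) : ((W N t B g φ : ↥(LinearMap.ker (TB N t B - 1))) : G ⧸ N → Z) w
      = (φ : G ⧸ N → Z) (g⁻¹ • w) := rfl

variable (p) in
/-- the cyclic shift `(S c)(i) = c (i - 1)`. -/
def shift (m : ℕ) : (ZMod m → ZMod p) →ₗ[ZMod p] (ZMod m → ZMod p) :=
  LinearMap.funLeft (ZMod p) (ZMod p) (fun i : ZMod m => i - 1)

@[simp] theorem shift_apply (m : ℕ) (c : ZMod m → ZMod p) (i : ZMod m) :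
    shift p m c i = c (i - 1) := rfl

/-- `c ↦ ∑ i, c i • B ^ i z`. -/
def piz {m : ℕ} [NeZero m] (B : Z →ₗ[ZMod p] Z) (z : Z) : (ZMod m → ZMod p) →ₗ[ZMod p] Z :=
  ∑ i : ZMod m, (LinearMap.proj i : (ZMod m → ZMod p) →ₗ[ZMod p] ZMod p).smulRight ((B ^ i.val) z)

theorem piz_apply {m : ℕ} [NeZero m] (B : Z →ₗ[ZMod p] Z) (z : Z) (c : ZMod m → ZMod p) :
    piz B z c = ∑ i : ZMod m, c i • (B ^ i.val) z := by
  simp [piz, LinearMap.sum_apply]

end Fermat.Agent.S56.Euler.Cyc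

end
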