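/-
S56 / Euler / Cyc / FunIso : `Fun ρ (G/U) ≅ W(Y, ρ t)`, `U = N ⊔ ⟨t⟩` (TASK S56/Cyc-FunIso).

PROOF.  `Φ : (G ⧸ U → Y) →ₗ ker (TB N t (ρ t) - 1)`, `(Φ f)(x N) = ρ x⁻¹ (f (x U))`.
 * well defined on `G ⧸ N` (`Quotient.liftOn'`/`QuotientGroup` lift): `ρ (x n)⁻¹ = ρ x⁻¹` (`hρ`), `x n U = x U` (`N ≤ U`).
 * `Φ f ∈ W`: `ρ t (ρ (x t)⁻¹ f (x t U)) = ρ x⁻¹ f (x U)`  (`mem_W_iff`; `QuotientGroup.induction_on w`).
 * equivariant: `(g f)(x U) = ρ g (f (g⁻¹ x U))`, so `Φ (g f)(x N) = ρ (g⁻¹ x)⁻¹ f (g⁻¹ x U) = (Φ f)(g⁻¹ • x N)`.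
 * injective: `f (x U) = ρ x ((Φ f)(x N))`.
 * surjective: for `φ ∈ W` put `f (x U) := ρ x (φ (x N))`; well defined: for `u ∈ U`, `(u : G ⧸ N) = τ ^ k` for some `k : ℤ`
   (`EA.Main_mem_sup_zpowers_iff`), `ρ u = ρ t ^ k` (both sides only depend on the class mod `N`: `u⁻¹ * t ^ k ∈ N`),
   and `(ρ t)^k (φ (w τ^k)) = φ w` for all `k : ℤ` (induction on `k ≥ 0` from `mem_W_iff`, then replace `w` by `w τ^{-k}`).
 * conclude with `a.e_congr` (`LinearEquiv.ofBijective`); `N` acts trivially on `Fun ρ (G ⧸ U)`: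
   `ρ n = 1` and `n⁻¹ • x U = x U` since `x⁻¹ n⁻¹ x ∈ N ≤ U`.
-/
import Fermat.Agent.S56.Euler.Cyc.Defs

set_option autoImplicit false

noncomputable section

namespace Fermat.Agent.S56.Euler.Cyc

open Fermat.Agent.S55 Module Polynomial

variable {p : ℕ} [Fact p.Prime] {G : Type} [Group G] (N : Subgroup G) [N.Normal] (t : G)

section aux

variable {Y : Type} [AddCommGroup Y] [Module (ZMod p) Y] (ρ : Representation (ZMod p) G Y)

/-- `(Φ f)(x N) = ρ x⁻¹ (f (x U))`. -/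
def FunIso_Φ : (G ⧸ (N ⊔ Subgroup.zpowers t) → Y) →ₗ[ZMod p] (G ⧸ N → Y) where
  toFun f w := ρ (w.out)⁻¹ (f ((w.out : G) : G ⧸ (N ⊔ Subgroup.zpowers t)))
  map_add' f f' := by ext w; simp
  map_smul' c f := by ext w; simp

variable {N t ρ}

omit [N.Normal] in
theorem FunIso_rho_mul_of_mem (hρ : ∀ n ∈ N, ρ n = 1) (x : G) {n : G} (hn : n ∈ N) :
    ρ (x * n) = ρ x := by
  rw [map_mul, hρ n hn, mul_one]

omit [N.Normal] in
theorem FunIso_mk_mul_of_mem (x : G) {u : G} (hu : u ∈ N ⊔ Subgroup.zpowers t) :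
    ((x * u : G) : G ⧸ (N ⊔ Subgroup.zpowers t)) = (x : G ⧸ (N ⊔ Subgroup.zpowers t)) := by
  rw [QuotientGroup.eq]
  have : (x * u)⁻¹ * x = u⁻¹ := by group
  rw [this]
  exact inv_mem hu

theorem FunIso_Φ_mk (hρ : ∀ n ∈ N, ρ n = 1) (f : G ⧸ (N ⊔ Subgroup.zpowers t) → Y) (x : G) :
    FunIso_Φ N t ρ f (x : G ⧸ N) = ρ x⁻¹ (f (x : G ⧸ (N ⊔ Subgroup.zpowers t))) := by
  obtain ⟨n, hn⟩ := QuotientGroup.mk_out_eq_mul N x
  show ρ ((x : G ⧸ N).out)⁻¹ (f (((x : G ⧸ N).out : G) : G ⧸ (N ⊔ Subgroup.zpowers t))) = _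
  rw [hn, FunIso_mk_mul_of_mem x (le_sup_left (a := N) n.2), mul_inv_rev, map_mul,
    hρ _ (inv_mem n.2), one_mul]

theorem FunIso_Φ_mem (hρ : ∀ n ∈ N, ρ n = 1) (f : G ⧸ (N ⊔ Subgroup.zpowers t) → Y) :
    FunIso_Φ N t ρ f ∈ LinearMap.ker (TB N t (ρ t) - 1) := by
  rw [mem_W_iff]
  intro w
  induction w using QuotientGroup.induction_on with
  | H x =>
    have h1 : (x : G ⧸ N) * (t : G ⧸ N) = ((x * t : G) : G ⧸ N) := rfl
    rw [h1, FunIso_Φ_mk hρ, FunIso_Φ_mk hρ,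
      FunIso_mk_mul_of_mem x (le_sup_right (b := Subgroup.zpowers t) (Subgroup.mem_zpowers t)),
      ← Module.End.mul_apply, ← map_mul]
    congr 2
    group

/-- the stabiliser subgroup of an element of `W`. -/
theorem FunIso_stab (hρ : ∀ n ∈ N, ρ n = 1) (φ : G ⧸ N → Y)
    (hφ : φ ∈ LinearMap.ker (TB N t (ρ t) - 1)) {u : G} (hu : u ∈ N ⊔ Subgroup.zpowers t)
    (w : G ⧸ N) : ρ u (φ (w * (u : G ⧸ N))) = φ w := by
  let S : Subgroup G :=
    { carrier := {u | ∀ w : G ⧸ N, ρ u (φ (w * (u : G ⧸ N))) = φ w}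
      one_mem' := by
        intro w
        simp
      mul_mem' := by
        intro u v hu hv w
        have h1 : w * ((u * v : G) : G ⧸ N) = (w * (u : G ⧸ N)) * (v : G ⧸ N) := by
          rw [QuotientGroup.mk_mul, mul_assoc]
        rw [h1, map_mul, Module.End.mul_apply, hv, hu]
      inv_mem' := by
        intro u hu w
        have h1 := hu (w * ((u⁻¹ : G) : G ⧸ N))
        rw [QuotientGroup.mk_inv, inv_mul_cancel_right] at h1
        rw [QuotientGroup.mk_inv, ← h1, ← Module.End.mul_apply, ← map_mul, inv_mul_cancel, map_one,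
          Module.End.one_apply] }
  have hN : N ≤ S := by
    intro n hn w
    rw [hρ n hn, (QuotientGroup.eq_one_iff n).2 hn, mul_one, Module.End.one_apply]
  have ht : Subgroup.zpowers t ≤ S := by
    rw [Subgroup.zpowers_le]
    exact (mem_W_iff N t (ρ t) φ).1 hφ
  exact (sup_le hN ht hu) w

end aux

theorem e_Fun_eq_W (a : EA.AddInv p G N) [Finite (G ⧸ N)]
    {Y : Type} [AddCommGroup Y] [Module (ZMod p) Y] [FiniteDimensional (ZMod p) Y]
    (ρ : Representation (ZMod p) G Y) (hρ : ∀ n ∈ N, ρ n = 1) :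
    a.e (Fun ρ (G ⧸ (N ⊔ Subgroup.zpowers t))) = a.e (W N t (ρ t)) := by
  have hfi : N.FiniteIndex := Subgroup.finiteIndex_of_finite_quotient
  have hfi' : (N ⊔ Subgroup.zpowers t).FiniteIndex := Subgroup.finiteIndex_of_le le_sup_left
  have hfin : Finite (G ⧸ (N ⊔ Subgroup.zpowers t)) := Subgroup.finite_quotient_of_finiteIndex
  have hcancel : ∀ (x : G) (v : Y), ρ x (ρ x⁻¹ v) = v := by
    intro x v
    rw [← Module.End.mul_apply, ← map_mul, mul_inv_cancel, map_one, Module.End.one_apply]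
  have hcancel' : ∀ (x : G) (v : Y), ρ x⁻¹ (ρ x v) = v := by
    intro x v
    rw [← Module.End.mul_apply, ← map_mul, inv_mul_cancel, map_one, Module.End.one_apply]
  let Ψ : (G ⧸ (N ⊔ Subgroup.zpowers t) → Y) →ₗ[ZMod p] ↥(LinearMap.ker (TB N t (ρ t) - 1)) :=
    (FunIso_Φ N t ρ).codRestrict _ (FunIso_Φ_mem hρ)
  have hinj : Function.Injective Ψ := by
    rw [← LinearMap.ker_eq_bot, LinearMap.ker_eq_bot']
    intro f hf
    ext v
    induction v using QuotientGroup.induction_on with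
    | H x =>
      have h1 : FunIso_Φ N t ρ f (x : G ⧸ N) = 0 := by
        have := congrArg (fun φ : ↥(LinearMap.ker (TB N t (ρ t) - 1)) => (φ : G ⧸ N → Y) x) hf
        exact this
      rw [FunIso_Φ_mk hρ] at h1
      have h2 := hcancel x (f (x : G ⧸ (N ⊔ Subgroup.zpowers t)))
      rw [h1, map_zero] at h2
      exact h2.symm
  have hsurj : Function.Surjective Ψ := by
    intro φ
    refine ⟨fun v => ρ v.out ((φ : G ⧸ N → Y) ((v.out : G) : G ⧸ N)), ?_⟩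
    apply Subtype.ext
    ext w
    induction w using QuotientGroup.induction_on with
    | H x =>
      show FunIso_Φ N t ρ _ (x : G ⧸ N) = _
      rw [FunIso_Φ_mk hρ]
      obtain ⟨u, hu⟩ := QuotientGroup.mk_out_eq_mul (N ⊔ Subgroup.zpowers t) x
      rw [hu, map_mul, Module.End.mul_apply, hcancel', QuotientGroup.mk_mul]
      exact FunIso_stab hρ _ φ.2 u.2 _
  refine a.e_congr ?_ (LinearEquiv.ofBijective Ψ ⟨hinj, hsurj⟩) ?_
  · intro n hn
    ext f v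
    induction v using QuotientGroup.induction_on with
    | H x =>
      rw [Fun_apply, hρ n hn, Module.End.one_apply, Module.End.one_apply]
      congr 1
      show ((n⁻¹ * x : G) : G ⧸ (N ⊔ Subgroup.zpowers t)) = _
      have h1 : n⁻¹ * x = x * (x⁻¹ * n⁻¹ * x) := by group
      rw [h1]
      apply FunIso_mk_mul_of_mem
      apply le_sup_left (a := N)
      have h2 := (inferInstance : N.Normal).conj_mem n⁻¹ (inv_mem hn) x⁻¹
      rwa [inv_inv] at h2
  · intro g f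
    apply Subtype.ext
    ext w
    induction w using QuotientGroup.induction_on with
    | H x =>
      show FunIso_Φ N t ρ (Fun ρ _ g f) (x : G ⧸ N) = FunIso_Φ N t ρ f (g⁻¹ • (x : G ⧸ N))
      have h1 : g⁻¹ • (x : G ⧸ N) = ((g⁻¹ * x : G) : G ⧸ N) := rfl
      rw [h1, FunIso_Φ_mk hρ, FunIso_Φ_mk hρ, Fun_apply, ← Module.End.mul_apply, ← map_mul]
      have h2 : (g⁻¹ * x)⁻¹ = x⁻¹ * g := by group
      rw [h2]
      rfl

end Fermat.Agent.S56.Euler.Cyc

end
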