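/-
S56 / Euler / Cyc / Exact : `W(Z,B)` is exact in `(Z,B)` (TASK S56/Cyc-Exact).

PROOF of `e_W_add`.  Build `E : SES (W N t B') (W N t B) (W N t B'')` and apply `a.add`:
 * maps: `φ ↦ i ∘ φ`, `φ ↦ π ∘ φ` (`LinearMap.compLeft` restricted to the kernels, use `mem_W_iff`, `hi`, `hπ`);
   equivariance is `rfl`-like (`W_apply_coe`: the action is left translation only).
 * injectivity, exactness in the middle: pointwise (if `π ∘ φ = 0`, `φ w = i (ψ w)` with `ψ w` unique; `ψ ∈ W(B')` because `i` is injective).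
 * SURJECTIVITY (the only point): `T := TB N t B` satisfies `T ^ m = 1`  [`(T^j φ)(w) = B^j (φ (w τ^j))` by induction; `B^m = 1`,
   `τ^m = 1` as `t^m ∈ N`].  Given `φ'' ∈ W(B'')` choose a pointwise lift `φ` (`π (φ w) = φ'' w`) and put
   `φ₁ := (m : ZMod p)⁻¹ • ∑ j ∈ range m, (T^j) φ`  (`(m : ZMod p) ≠ 0` as `p ∤ m`: `(ZMod.natCast_eq_zero_iff m p)`).
   `T φ₁ = φ₁` (`Finset.sum_range_succ'`/`sum_range_succ` + `T^m = 1`), and `π ∘ (T^j φ) = T''^j (π ∘ φ) = T''^j φ'' = φ''`.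
 * hypotheses of `a.add`: the middle space is a subspace of `G ⧸ N → Z` (finite dimensional: `Finite (G ⧸ N)`; use
   `Fintype.ofFinite`), and `n ∈ N` acts trivially: `n⁻¹ • w = w` on `G ⧸ N` (`N` normal).
-/
import Fermat.Agent.S56.Euler.Cyc.Defs

set_option autoImplicit false

noncomputable section

namespace Fermat.Agent.S56.Euler.Cyc

open Fermat.Agent.S55 Module Polynomial

variable {p : ℕ} [Fact p.Prime] {G : Type} [Group G] (N : Subgroup G) [N.Normal] (t : G)

/-- `N` acts trivially on `W(Z,B)`. -/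
theorem W_trivial_on {Z : Type} [AddCommGroup Z] [Module (ZMod p) Z] (B : Z →ₗ[ZMod p] Z) :
    ∀ n ∈ N, W N t B n = 1 := by
  intro n hn
  have key : ∀ w : G ⧸ N, n⁻¹ • w = w := by
    intro w
    induction w using QuotientGroup.induction_on with
    | H x =>
      show ((n⁻¹ * x : G) : G ⧸ N) = (x : G ⧸ N)
      rw [QuotientGroup.eq]
      have : (n⁻¹ * x)⁻¹ * x = x⁻¹ * n * x := by group
      rw [this]
      exact (inferInstance : N.Normal).conj_mem' n hn x
  ext φ w
  rw [W_apply_coe, key]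
  rfl

instance W_finiteDimensional [Finite (G ⧸ N)] {Z : Type} [AddCommGroup Z] [Module (ZMod p) Z]
    [FiniteDimensional (ZMod p) Z] (B : Z →ₗ[ZMod p] Z) :
    FiniteDimensional (ZMod p) ↥(LinearMap.ker (TB N t B - 1)) := by
  have : FiniteDimensional (ZMod p) (G ⧸ N → Z) := Module.Finite.pi
  infer_instance

/-- the explicit formula for the powers of `T_B`. -/
theorem Exact_TB_pow_apply {Z : Type} [AddCommGroup Z] [Module (ZMod p) Z] (B : Z →ₗ[ZMod p] Z)
    (j : ℕ) (φ : G ⧸ N → Z) (w : G ⧸ N) :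
    ((TB N t B) ^ j) φ w = (B ^ j) (φ (w * (t : G ⧸ N) ^ j)) := by
  induction j generalizing φ w with
  | zero => simp
  | succ j ih =>
    rw [pow_succ, Module.End.mul_apply, ih, TB_apply, pow_succ B, Module.End.mul_apply,
      pow_succ (t : G ⧸ N), mul_assoc]

/-- the map `W(Z₁,B₁) → W(Z₂,B₂)` induced by an intertwining map. -/
def ExactMap {Z₁ Z₂ : Type} [AddCommGroup Z₁] [Module (ZMod p) Z₁] [AddCommGroup Z₂]
    [Module (ZMod p) Z₂] (B₁ : Z₁ →ₗ[ZMod p] Z₁) (B₂ : Z₂ →ₗ[ZMod p] Z₂) (f : Z₁ →ₗ[ZMod p] Z₂)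
    (hf : ∀ z, f (B₁ z) = B₂ (f z)) :
    ↥(LinearMap.ker (TB N t B₁ - 1)) →ₗ[ZMod p] ↥(LinearMap.ker (TB N t B₂ - 1)) :=
  (f.compLeft (G ⧸ N)).restrict (fun φ hφ => by
    rw [mem_W_iff] at hφ ⊢
    intro w
    show B₂ (f (φ (w * (t : G ⧸ N)))) = f (φ w)
    rw [← hf, hφ w])

theorem ExactMap_apply {Z₁ Z₂ : Type} [AddCommGroup Z₁] [Module (ZMod p) Z₁] [AddCommGroup Z₂]
    [Module (ZMod p) Z₂] (B₁ : Z₁ →ₗ[ZMod p] Z₁) (B₂ : Z₂ →ₗ[ZMod p] Z₂) (f : Z₁ →ₗ[ZMod p] Z₂)
    (hf : ∀ z, f (B₁ z) = B₂ (f z)) (φ : ↥(LinearMap.ker (TB N t B₁ - 1))) (w : G ⧸ N) :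
    (ExactMap N t B₁ B₂ f hf φ : G ⧸ N → Z₂) w = f ((φ : G ⧸ N → Z₁) w) := rfl

/-- surjectivity of `W(Z,B) → W(Z'',B'')` (averaging). -/
theorem ExactMap_surjective {m : ℕ} (hm : ¬ p ∣ m) (ht : t ^ m ∈ N)
    {Z Z'' : Type} [AddCommGroup Z] [Module (ZMod p) Z]
    [AddCommGroup Z''] [Module (ZMod p) Z'']
    (B : Z →ₗ[ZMod p] Z) (B'' : Z'' →ₗ[ZMod p] Z'') (hB : B ^ m = 1)
    (π : Z →ₗ[ZMod p] Z'') (hπ : ∀ z, π (B z) = B'' (π z)) (surj : Function.Surjective π) :
    Function.Surjective (ExactMap N t B B'' π hπ) := by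
  intro φ''
  have hφ'' := (mem_W_iff N t B'' _).1 φ''.2
  choose s hs using surj
  set T := TB N t B with hT
  let φ : G ⧸ N → Z := fun w => s ((φ'' : G ⧸ N → Z'') w)
  have hm0 : (m : ZMod p) ≠ 0 := by
    rw [Ne, ZMod.natCast_eq_zero_iff]
    exact hm
  have hTm : (T ^ m) φ = φ := by
    funext w
    rw [hT, Exact_TB_pow_apply, hB, ← QuotientGroup.mk_pow, (QuotientGroup.eq_one_iff _).2 ht,
      mul_one]
    rfl
  let Sφ : G ⧸ N → Z := ∑ j ∈ Finset.range m, (T ^ j) φ
  have hTS : T Sφ = Sφ := by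
    have h1 : T Sφ = ∑ j ∈ Finset.range m, (T ^ (j + 1)) φ := by
      show T (∑ j ∈ Finset.range m, (T ^ j) φ) = _
      rw [map_sum]
      refine Finset.sum_congr rfl fun j _ => ?_
      rw [pow_succ', Module.End.mul_apply]
    have h2 := Finset.sum_range_succ (fun j => (T ^ j) φ) m
    have h3 := Finset.sum_range_succ' (fun j => (T ^ j) φ) m
    rw [h2, hTm] at h3
    rw [h1]
    have h4 : (T ^ 0) φ = φ := by simp
    rw [h4] at h3
    exact (add_right_cancel h3).symm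
  have hπT : ∀ (j : ℕ) (w : G ⧸ N), π ((T ^ j) φ w) = (φ'' : G ⧸ N → Z'') w := by
    intro j
    induction j with
    | zero =>
      intro w
      simp only [pow_zero, Module.End.one_apply]
      exact hs _
    | succ j ih =>
      intro w
      rw [pow_succ', Module.End.mul_apply, hT, TB_apply, hπ, ← hT, ih, hφ'']
  refine ⟨⟨(m : ZMod p)⁻¹ • Sφ, ?_⟩, ?_⟩
  · rw [LinearMap.mem_ker, LinearMap.sub_apply, map_smul, hTS, Module.End.one_apply, sub_self]
  · apply Subtype.ext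
    funext w
    rw [ExactMap_apply]
    show π (((m : ZMod p)⁻¹ • Sφ) w) = _
    rw [Pi.smul_apply, map_smul]
    show (m : ZMod p)⁻¹ • π ((∑ j ∈ Finset.range m, (T ^ j) φ) w) = _
    rw [Finset.sum_apply, map_sum, Finset.sum_congr rfl (fun j _ => hπT j w), Finset.sum_const,
      Finset.card_range, ← Nat.cast_smul_eq_nsmul (ZMod p), smul_smul, inv_mul_cancel₀ hm0,
      one_smul]

/-- additivity of `(Z,B) ↦ e (W(Z,B))`. -/
theorem e_W_add (a : EA.AddInv p G N) [Finite (G ⧸ N)] {m : ℕ} (hm : ¬ p ∣ m) (ht : t ^ m ∈ N)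
    {Z' Z Z'' : Type} [AddCommGroup Z'] [Module (ZMod p) Z'] [AddCommGroup Z] [Module (ZMod p) Z]
    [AddCommGroup Z''] [Module (ZMod p) Z''] [FiniteDimensional (ZMod p) Z]
    (B' : Z' →ₗ[ZMod p] Z') (B : Z →ₗ[ZMod p] Z) (B'' : Z'' →ₗ[ZMod p] Z'') (hB : B ^ m = 1)
    (i : Z' →ₗ[ZMod p] Z) (π : Z →ₗ[ZMod p] Z'') (hi : ∀ z, i (B' z) = B (i z))
    (hπ : ∀ z, π (B z) = B'' (π z)) (inj : Function.Injective i) (surj : Function.Surjective π)
    (ex : Function.Exact i π) :
    a.e (W N t B) = a.e (W N t B') + a.e (W N t B'') := by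
  let E : SES (W N t B') (W N t B) (W N t B'') :=
    { i := ExactMap N t B' B i hi
      π := ExactMap N t B B'' π hπ
      i_comm := fun _ _ => rfl
      π_comm := fun _ _ => rfl
      inj := by
        intro φ ψ h
        apply Subtype.ext
        funext w
        apply inj
        have := congrFun (congrArg Subtype.val h) w
        exact this
      surj := ExactMap_surjective N t hm ht B B'' hB π hπ surj
      exact := by
        intro φ
        constructor
        · intro h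
          have h1 : ∀ w, ∃ z', i z' = (φ : G ⧸ N → Z) w := by
            intro w
            have := congrFun (congrArg Subtype.val h) w
            exact (ex _).1 this
          choose ψ hψ using h1
          refine ⟨⟨ψ, ?_⟩, ?_⟩
          · rw [mem_W_iff]
            intro w
            apply inj
            rw [hi, hψ, hψ]
            exact (mem_W_iff N t B _).1 φ.2 w
          · apply Subtype.ext
            funext w
            exact hψ w
        · rintro ⟨ψ, rfl⟩
          apply Subtype.ext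
          funext w
          exact (ex _).2 ⟨_, rfl⟩ }
  exact a.add (W_trivial_on N t B) E

end Fermat.Agent.S56.Euler.Cyc

end
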