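/-
S56 / Euler / Cyc / Reg : the regular pair `(ZMod m → 𝔽_p, S)` (TASKS S56/Cyc-Piz, S56/Cyc-Reg).

(Cyc-Piz)  `shift_pow`, `shift_pow_eq_one`, `piz_shift`, `piz_single`: reindexing over `ZMod m`
  (`Equiv.sum_comp (Equiv.subRight 1)` / `Fintype.sum_equiv`), `B ^ (i + 1).val = B * B ^ i.val` from `B ^ m = 1`
  (`ZMod.val_add`, `pow_eq_pow_mod`), `Finset.sum_eq_single 0`.

(Cyc-Reg)  `e_W_ker`.  `K := ker Q(S)`.  `ev : ker (TB N t (S|K) - 1) → ker Q(R_{t⁻¹})`, `φ ↦ (w ↦ (φ w : ZMod m → 𝔽_p) 0)`.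
  For `φ ∈ W`: `S (φ (w τ)) = φ w`, i.e. `φ w i = φ (w τ) (i - 1)`, hence `φ w i = φ (w τ ^ i.val) 0` (induction on `i.val`, or prove
  `φ w (j : ZMod m) = φ (w τ^j) 0` for `j : ℕ`).  So `φ` is determined by `ψ := ev φ`: `φ w i = ψ (w τ^i.val)`: `ev` is injective.
  KEY: for every polynomial `P`: `(P(S) (φ w)) i = (P(R_{t⁻¹}) ψ) (w τ^i.val)`  [for `P = X`: `(S (φ w)) i = φ w (i - 1) = ψ (w τ^i τ⁻¹)`;
  cleanest: let `J : (G ⧸ N → 𝔽_p) →ₗ (G ⧸ N → ZMod m → 𝔽_p)`, `J ψ w i = ψ (w τ^i.val)`; then `(S ∘ ·) ∘ J = J ∘ R_{t⁻¹}` (uses `τ^m = 1`), so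
  `(P(S) ∘ ·) ∘ J = J ∘ P(R_{t⁻¹})` by `Polynomial.induction_on`], so `φ w ∈ K ∀ w ⟺ Q(R_{t⁻¹}) ψ = 0` (`J` injective: `i = 0`).
  Surjective: given `ψ ∈ ker Q(R_{t⁻¹})`, `φ := J ψ` has values in `K` and `S (φ (w τ)) i = ψ (w τ τ^(i-1).val) = ψ (w τ^i.val)`.
  Equivariance: both actions are left translations (`smul_mul_coe`).  Conclude with `a.e_congr` (`W_trivial_on`, `W_finiteDimensional`).
-/
import Fermat.Agent.S56.Euler.Cyc.Exact

set_option autoImplicit false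

noncomputable section

namespace Fermat.Agent.S56.Euler.Cyc

open Fermat.Agent.S55 Module Polynomial

variable {p : ℕ} [Fact p.Prime] {G : Type} [Group G] (N : Subgroup G) [N.Normal] (t : G)

section piz

variable {Z : Type} [AddCommGroup Z] [Module (ZMod p) Z] {m : ℕ} [NeZero m]

theorem shift_pow (j : ℕ) (c : ZMod m → ZMod p) (i : ZMod m) :
    (shift p m ^ j) c i = c (i - (j : ZMod m)) := by
  induction j generalizing i with
  | zero => simp
  | succ j ih =>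
    rw [pow_succ', Module.End.mul_apply, shift_apply, ih]
    congr 1
    push_cast
    ring

theorem shift_pow_eq_one : shift p m ^ m = 1 := by
  refine LinearMap.ext fun c => funext fun i => ?_
  rw [shift_pow, ZMod.natCast_self, sub_zero]
  rfl

theorem piz_shift (B : Z →ₗ[ZMod p] Z) (hB : B ^ m = 1) (z : Z) (c : ZMod m → ZMod p) :
    piz B z (shift p m c) = B (piz B z c) := by
  rw [piz_apply, piz_apply, map_sum, ← Equiv.sum_comp (Equiv.addRight (1 : ZMod m))]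
  refine Finset.sum_congr rfl fun i _ => ?_
  have h1 : B ^ (i + 1).val = B * B ^ i.val := by
    rw [ZMod.val_add, ZMod.val_one_eq_one_mod, Nat.add_mod_mod, ← pow_eq_pow_mod _ hB, pow_succ']
  rw [Equiv.coe_addRight, shift_apply, add_sub_cancel_right, h1, Module.End.mul_apply, map_smul]

theorem piz_single (B : Z →ₗ[ZMod p] Z) (z : Z) :
    piz B z (Pi.single (0 : ZMod m) (1 : ZMod p)) = z := by
  rw [piz_apply, Finset.sum_eq_single (0 : ZMod m)]
  · rw [Pi.single_eq_same, ZMod.val_zero, pow_zero, one_smul]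
    rfl
  · intro i _ hi
    rw [Pi.single_eq_of_ne hi, zero_smul]
  · intro h
    exact absurd (Finset.mem_univ _) h

end piz

section RegAux

variable {m : ℕ} [NeZero m]

theorem Reg_pow_val_add {M : Type} [Monoid M] {x : M} (hx : x ^ m = 1) (i j : ZMod m) :
    x ^ (i + j).val = x ^ i.val * x ^ j.val := by
  rw [ZMod.val_add, ← pow_eq_pow_mod _ hx, pow_add]

omit [NeZero m] in
theorem Reg_pow_val_one {M : Type} [Monoid M] {x : M} (hx : x ^ m = 1) :
    x ^ (1 : ZMod m).val = x := by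
  rw [ZMod.val_one_eq_one_mod, ← pow_eq_pow_mod _ hx, pow_one]

/-- `J ψ w i = ψ (w τ^i)`. -/
def RegJ (m : ℕ) : (G ⧸ N → ZMod p) →ₗ[ZMod p] (G ⧸ N → ZMod m → ZMod p) where
  toFun ψ := fun w i => ψ (w * (t : G ⧸ N) ^ i.val)
  map_add' _ _ := rfl
  map_smul' _ _ := rfl

omit [NeZero m] in
theorem RegJ_apply (ψ : G ⧸ N → ZMod p) (w : G ⧸ N) (i : ZMod m) :
    RegJ N t m ψ w i = ψ (w * (t : G ⧸ N) ^ i.val) := rfl

theorem RegJ_shift (ht : t ^ m ∈ N) (ψ : G ⧸ N → ZMod p) (w : G ⧸ N) :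
    shift p m (RegJ N t m ψ w) = RegJ N t m (rt (ZMod p) (ZMod p) N t⁻¹ ψ) w := by
  have hτ : (t : G ⧸ N) ^ m = 1 := by
    rw [← QuotientGroup.mk_pow]
    exact (QuotientGroup.eq_one_iff _).2 ht
  funext i
  rw [shift_apply, RegJ_apply, RegJ_apply, rt_apply]
  congr 1
  have h1 := Reg_pow_val_add hτ (i - 1) 1
  rw [sub_add_cancel, Reg_pow_val_one hτ] at h1
  rw [h1, QuotientGroup.mk_inv, mul_assoc, mul_assoc, mul_inv_cancel, mul_one]

theorem RegJ_aeval (ht : t ^ m ∈ N) (P : (ZMod p)[X]) : ∀ (ψ : G ⧸ N → ZMod p) (w : G ⧸ N),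
    aeval (shift p m) P (RegJ N t m ψ w) =
      RegJ N t m (aeval (rt (ZMod p) (ZMod p) N t⁻¹) P ψ) w := by
  induction P using Polynomial.induction_on with
  | C a =>
    intro ψ w
    rw [aeval_C, aeval_C, Module.algebraMap_end_apply, Module.algebraMap_end_apply, map_smul]
    rfl
  | add P Q hP hQ =>
    intro ψ w
    rw [map_add, map_add, LinearMap.add_apply, LinearMap.add_apply, hP, hQ, map_add]
    rfl
  | monomial n a ih =>
    intro ψ w
    have h1 : (C a * X ^ (n + 1) : (ZMod p)[X]) = (C a * X ^ n) * X := by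
      rw [pow_succ, mul_assoc]
    rw [h1, map_mul (aeval (shift p m)) (C a * X ^ n) X,
      map_mul (aeval (rt (ZMod p) (ZMod p) N t⁻¹)) (C a * X ^ n) X, aeval_X, aeval_X,
      Module.End.mul_apply, Module.End.mul_apply, RegJ_shift N t ht, ih]

omit [NeZero m] in
theorem RegJ_zero (ψ : G ⧸ N → ZMod p) (w : G ⧸ N) : RegJ N t m ψ w 0 = ψ w := by
  rw [RegJ_apply, ZMod.val_zero, pow_zero, mul_one]

end RegAux

/-- `W(ker Q(S), S) ≅ ker Q(R_{t⁻¹}) ⊆ Fun(G/N, 𝔽_p)`. -/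
theorem e_W_ker (a : EA.AddInv p G N) [Finite (G ⧸ N)] {m : ℕ} [NeZero m] (ht : t ^ m ∈ N)
    (Q : (ZMod p)[X])
    (hK : ∀ c ∈ LinearMap.ker (aeval (shift p m) Q),
      shift p m c ∈ LinearMap.ker (aeval (shift p m) Q)) :
    a.e (W N t ((shift p m).restrict hK)) =
      a.e (kerQ (Fun (Representation.trivial (ZMod p) G (ZMod p)) (G ⧸ N))
        (rt (ZMod p) (ZMod p) N t⁻¹) (rt_comm _ N t⁻¹) Q) := by
  have hτ : (t : G ⧸ N) ^ m = 1 := by
    rw [← QuotientGroup.mk_pow]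
    exact (QuotientGroup.eq_one_iff _).2 ht
  -- evaluation at `0`
  let ev : (G ⧸ N → ↥(LinearMap.ker (aeval (shift p m) Q))) →ₗ[ZMod p] (G ⧸ N → ZMod p) :=
    ((LinearMap.proj (0 : ZMod m) : (ZMod m → ZMod p) →ₗ[ZMod p] ZMod p) ∘ₗ
      (LinearMap.ker (aeval (shift p m) Q)).subtype).compLeft (G ⧸ N)
  have hev : ∀ φ w, ev φ w = (φ w : ZMod m → ZMod p) 0 := fun _ _ => rfl
  -- elements of `W` are determined by `ev`
  have hdet : ∀ φ ∈ LinearMap.ker (TB N t ((shift p m).restrict hK) - 1), ∀ w,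
      (φ w : ZMod m → ZMod p) = RegJ N t m (ev φ) w := by
    intro φ hφ w
    rw [mem_W_iff] at hφ
    have h1 : ∀ (w : G ⧸ N) (i : ZMod m),
        (φ w : ZMod m → ZMod p) i = (φ (w * (t : G ⧸ N)) : ZMod m → ZMod p) (i - 1) := by
      intro w i
      have := congrArg (fun x : ↥(LinearMap.ker (aeval (shift p m) Q)) =>
        (x : ZMod m → ZMod p) i) (hφ w)
      exact this.symm
    have h2 : ∀ (j : ℕ) (w : G ⧸ N) (i : ZMod m),
        (φ w : ZMod m → ZMod p) i = (φ (w * (t : G ⧸ N) ^ j) : ZMod m → ZMod p) (i - j) := by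
      intro j
      induction j with
      | zero =>
        intro w i
        rw [pow_zero, mul_one, Nat.cast_zero, sub_zero]
      | succ j ih =>
        intro w i
        rw [ih w i, h1, pow_succ, mul_assoc, Nat.cast_succ, sub_sub]
    funext i
    rw [RegJ_apply, hev, h2 i.val w i, ZMod.natCast_zmod_val, sub_self]
  have hmem : ∀ φ : ↥(LinearMap.ker (TB N t ((shift p m).restrict hK) - 1)),
      ev (φ : G ⧸ N → ↥(LinearMap.ker (aeval (shift p m) Q))) ∈
        LinearMap.ker (aeval (rt (ZMod p) (ZMod p) N t⁻¹) Q) := by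
    intro φ
    rw [LinearMap.mem_ker]
    funext w
    rw [← RegJ_zero N t (m := m) (aeval (rt (ZMod p) (ZMod p) N t⁻¹) Q (ev φ.1)) w,
      ← RegJ_aeval N t ht, ← hdet φ.1 φ.2 w, LinearMap.mem_ker.1 (φ.1 w).2]
    rfl
  let F : ↥(LinearMap.ker (TB N t ((shift p m).restrict hK) - 1)) →ₗ[ZMod p]
      ↥(LinearMap.ker (aeval (rt (ZMod p) (ZMod p) N t⁻¹) Q)) :=
    LinearMap.codRestrict _ (ev ∘ₗ (LinearMap.ker (TB N t ((shift p m).restrict hK) - 1)).subtype)
      hmem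
  have hF : ∀ φ, ((F φ : ↥(LinearMap.ker (aeval (rt (ZMod p) (ZMod p) N t⁻¹) Q))) :
      G ⧸ N → ZMod p) = ev φ.1 := fun _ => rfl
  have hinj : Function.Injective F := by
    rw [← LinearMap.ker_eq_bot, LinearMap.ker_eq_bot']
    intro φ hφ
    have h1 : ev φ.1 = 0 := by rw [← hF, hφ]; rfl
    apply Subtype.ext
    funext w
    apply Subtype.ext
    rw [hdet φ.1 φ.2 w, h1, map_zero]
    rfl
  have hsurj : Function.Surjective F := by
    intro ψ
    have hval : ∀ w, RegJ N t m ψ.1 w ∈ LinearMap.ker (aeval (shift p m) Q) := by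
      intro w
      rw [LinearMap.mem_ker, RegJ_aeval N t ht, LinearMap.mem_ker.1 ψ.2, map_zero]
      rfl
    have hW : (fun w => (⟨RegJ N t m ψ.1 w, hval w⟩ : ↥(LinearMap.ker (aeval (shift p m) Q)))) ∈
        LinearMap.ker (TB N t ((shift p m).restrict hK) - 1) := by
      rw [mem_W_iff]
      intro w
      apply Subtype.ext
      funext i
      show shift p m (RegJ N t m ψ.1 (w * (t : G ⧸ N))) i = RegJ N t m ψ.1 w i
      rw [shift_apply, RegJ_apply, RegJ_apply]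
      have h1 := Reg_pow_val_add hτ 1 (i - 1)
      rw [add_sub_cancel, Reg_pow_val_one hτ] at h1
      rw [h1, mul_assoc]
    refine ⟨⟨_, hW⟩, ?_⟩
    apply Subtype.ext
    funext w
    rw [hF, hev]
    exact RegJ_zero N t ψ.1 w
  refine a.e_congr (W_trivial_on N t _) (LinearEquiv.ofBijective F ⟨hinj, hsurj⟩) ?_
  intro g φ
  rfl

end Fermat.Agent.S56.Euler.Cyc

end
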