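/-
S56 / Euler / Cyc / Stable : `S`-stable subspaces of `ZMod m → 𝔽_p` are the `ker Q(S)`, `Q ∣ X^m - 1` (TASK S56/Cyc-Stable).
Mathlib only (+ `shift`, `shift_pow`, `shift_pow_eq_one`).

PROOF.  `δ := Pi.single 0 1`, `S := shift p m`.
 (1) `(S^j) δ = Pi.single (j : ZMod m) 1`  (`shift_pow`).
 (2) CYCLIC: every `c` is `P_c(S) δ`, `P_c := ∑ i, C (c i) * X ^ i.val`.
 (3) ANNIHILATOR: `P(S) δ = 0 → X^m - 1 ∣ P`: `P = (X^m - 1) * (P /ₘ ·) + P %ₘ (X^m - 1)` (`monic_X_pow_sub_C`, `modByMonic_add_div`),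
     `(X^m - 1)(S) = 0`, and for `R := P %ₘ (X^m-1)` of degree `< m`: `(R(S) δ)(j : ZMod m) = R.coeff j` for `j < m`
     (`R = ∑ j ∈ range m, C (coeff j) X^j`: `Polynomial.as_sum_range'`), so `R = 0`.
 (4) `I := {P | P(S) δ ∈ K}` is an ideal of `𝔽_p[X]` (`K` is stable under `S`, hence under every `A(S)`: `Polynomial.induction_on`;
     `(A * P)(S) δ = A(S) (P(S) δ)`), `X^m - 1 ∈ I`.  `Qc := generator I` (`Submodule.IsPrincipal.generator`, `𝔽_p[X]` is a PID), `Qc ∣ X^m - 1`:
     `X^m - 1 = Qc * Q`, so `Q * Qc = X^m - 1`; `Q ≠ 0`, since `X^m - 1 ≠ 0`.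
 (5) `K = ker Q(S)`:  `c = P(S) δ ∈ K ⟹ P = Qc * A ⟹ Q(S) c = ((X^m - 1) A)(S) δ = 0`.
     Conversely `Q(S) c = 0`, `c = P(S) δ` `⟹ X^m - 1 = Q * Qc ∣ Q * P ⟹ Qc ∣ P` (`mul_dvd_mul_iff_left`) `⟹ P ∈ I ⟹ c ∈ K`.
-/
import Fermat.Agent.S56.Euler.Cyc.Reg

set_option autoImplicit false

noncomputable section

namespace Fermat.Agent.S56.Euler.Cyc

open Module Polynomial

variable {p : ℕ} [Fact p.Prime]

theorem Stable_pow_delta {m : ℕ} [NeZero m] (j : ℕ) :
    (shift p m ^ j) (Pi.single (0 : ZMod m) (1 : ZMod p)) = Pi.single (j : ZMod m) 1 := by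
  classical
  funext i
  rw [shift_pow]
  by_cases h : i = j
  · subst h
    simp
  · rw [Pi.single_eq_of_ne h, Pi.single_eq_of_ne (sub_ne_zero.mpr h)]

theorem Stable_cyclic {m : ℕ} [NeZero m] (c : ZMod m → ZMod p) :
    ∃ P : (ZMod p)[X], aeval (shift p m) P (Pi.single (0 : ZMod m) (1 : ZMod p)) = c := by
  classical
  refine ⟨∑ i : ZMod m, C (c i) * X ^ i.val, ?_⟩
  rw [map_sum, LinearMap.sum_apply]
  have h : ∀ i : ZMod m, aeval (shift p m) (C (c i) * X ^ i.val)
      (Pi.single (0 : ZMod m) (1 : ZMod p)) = Pi.single i (c i) := by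
    intro i
    rw [map_mul, aeval_C, map_pow, aeval_X, Module.End.mul_apply, Stable_pow_delta,
      ZMod.natCast_zmod_val, Module.algebraMap_end_apply]
    funext k
    by_cases hk : k = i
    · subst hk
      simp
    · simp [Pi.single_eq_of_ne hk]
  rw [Finset.sum_congr rfl fun i _ => h i]
  exact Finset.univ_sum_single c

theorem Stable_ann {m : ℕ} [NeZero m] (P : (ZMod p)[X])
    (hP : aeval (shift p m) P (Pi.single (0 : ZMod m) (1 : ZMod p)) = 0) :
    (X ^ m - 1 : (ZMod p)[X]) ∣ P := by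
  classical
  have hmon : (X ^ m - 1 : (ZMod p)[X]).Monic := by
    have := monic_X_pow_sub_C (1 : ZMod p) (NeZero.ne m)
    rwa [map_one] at this
  rw [← modByMonic_eq_zero_iff_dvd hmon]
  set R := P %ₘ (X ^ m - 1) with hR
  have hdeg : R.natDegree < m := by
    have h1 := natDegree_modByMonic_lt P hmon (by
      intro h
      have h2 := congrArg natDegree h
      have h3 : (X ^ m - 1 : (ZMod p)[X]).natDegree = m := by
        have := natDegree_X_pow_sub_C (R := ZMod p) (n := m) (r := 1)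
        rwa [map_one] at this
      rw [h3, natDegree_one] at h2
      exact NeZero.ne m h2)
    have h3 : (X ^ m - 1 : (ZMod p)[X]).natDegree = m := by
      have := natDegree_X_pow_sub_C (R := ZMod p) (n := m) (r := 1)
      rwa [map_one] at this
    rwa [h3] at h1
  have h0 : aeval (shift p m) (X ^ m - 1 : (ZMod p)[X]) = 0 := by
    rw [map_sub, map_pow, aeval_X, map_one, shift_pow_eq_one, sub_self]
  have hRz : aeval (shift p m) R (Pi.single (0 : ZMod m) (1 : ZMod p)) = 0 := by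
    have h1 := modByMonic_add_div P (X ^ m - 1 : (ZMod p)[X])
    rw [← h1, map_add, map_mul, h0, zero_mul, add_zero] at hP
    exact hP
  rw [R.as_sum_range' m hdeg, map_sum, LinearMap.sum_apply] at hRz
  have hterm : ∀ j : ℕ, aeval (shift p m) (monomial j (R.coeff j))
      (Pi.single (0 : ZMod m) (1 : ZMod p)) = R.coeff j • Pi.single (j : ZMod m) (1 : ZMod p) := by
    intro j
    rw [aeval_monomial, Module.End.mul_apply, Stable_pow_delta, Module.algebraMap_end_apply]
  rw [Finset.sum_congr rfl fun j _ => hterm j] at hRz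
  ext j
  rw [coeff_zero]
  by_cases hj : j < m
  · have h1 := congrFun hRz (j : ZMod m)
    rw [Finset.sum_apply, Finset.sum_eq_single j] at h1
    · simpa using h1
    · intro k hk hkj
      have hk' := Finset.mem_range.mp hk
      have hne : (j : ZMod m) ≠ (k : ZMod m) := by
        intro h
        rw [ZMod.natCast_eq_natCast_iff', Nat.mod_eq_of_lt hj, Nat.mod_eq_of_lt hk'] at h
        exact hkj h.symm
      simp [Pi.single_eq_of_ne hne]
    · intro h
      exact absurd (Finset.mem_range.mpr hj) h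
  · exact coeff_eq_zero_of_natDegree_lt (lt_of_lt_of_le hdeg (not_lt.mp hj))

theorem Stable_aeval_mem {m : ℕ} (K : Submodule (ZMod p) (ZMod m → ZMod p))
    (hK : ∀ c ∈ K, shift p m c ∈ K) (A : (ZMod p)[X]) : ∀ c ∈ K, aeval (shift p m) A c ∈ K := by
  induction A using Polynomial.induction_on with
  | C a =>
    intro c hc
    rw [aeval_C, Module.algebraMap_end_apply]
    exact K.smul_mem a hc
  | add P Q hP hQ =>
    intro c hc
    rw [map_add, LinearMap.add_apply]
    exact K.add_mem (hP c hc) (hQ c hc)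
  | monomial n a ih =>
    intro c hc
    have h1 : (C a * X ^ (n + 1) : (ZMod p)[X]) = (C a * X ^ n) * X := by
      rw [pow_succ, mul_assoc]
    rw [h1, map_mul, aeval_X, Module.End.mul_apply]
    exact ih _ (hK c hc)

theorem exists_eq_ker {m : ℕ} [NeZero m] (K : Submodule (ZMod p) (ZMod m → ZMod p))
    (hK : ∀ c ∈ K, shift p m c ∈ K) :
    ∃ Q Qc : (ZMod p)[X], Q * Qc = X ^ m - 1 ∧ K = LinearMap.ker (aeval (shift p m) Q) := by
  classical
  have h0 : aeval (shift p m) (X ^ m - 1 : (ZMod p)[X]) = 0 := by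
    rw [map_sub, map_pow, aeval_X, map_one, shift_pow_eq_one, sub_self]
  let I : Ideal (ZMod p)[X] :=
    { carrier := {P | aeval (shift p m) P (Pi.single (0 : ZMod m) (1 : ZMod p)) ∈ K}
      add_mem' := fun {a b} ha hb => by
        show aeval (shift p m) (a + b) _ ∈ K
        rw [map_add, LinearMap.add_apply]
        exact K.add_mem ha hb
      zero_mem' := by
        show aeval (shift p m) (0 : (ZMod p)[X]) _ ∈ K
        rw [map_zero, LinearMap.zero_apply]
        exact K.zero_mem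
      smul_mem' := fun A P hP => by
        show aeval (shift p m) (A • P) _ ∈ K
        rw [smul_eq_mul, map_mul, Module.End.mul_apply]
        exact Stable_aeval_mem K hK A _ hP }
  have hmemI : ∀ P, P ∈ I ↔ aeval (shift p m) P (Pi.single (0 : ZMod m) (1 : ZMod p)) ∈ K :=
    fun _ => Iff.rfl
  have hXI : (X ^ m - 1 : (ZMod p)[X]) ∈ I := by
    rw [hmemI, h0, LinearMap.zero_apply]
    exact K.zero_mem
  have hgen : ∀ P, P ∈ I ↔ Submodule.IsPrincipal.generator I ∣ P := fun P =>
    Submodule.IsPrincipal.mem_iff_generator_dvd I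
  obtain ⟨Q, hQ⟩ := (hgen _).mp hXI
  have hne : (X ^ m - 1 : (ZMod p)[X]) ≠ 0 := by
    have hmon : (X ^ m - 1 : (ZMod p)[X]).Monic := by
      have := monic_X_pow_sub_C (1 : ZMod p) (NeZero.ne m)
      rwa [map_one] at this
    exact hmon.ne_zero
  have hQ0 : Q ≠ 0 := by
    rintro rfl
    rw [mul_zero] at hQ
    exact hne hQ
  refine ⟨Q, Submodule.IsPrincipal.generator I, by rw [hQ, mul_comm], ?_⟩
  ext c
  obtain ⟨P, rfl⟩ := Stable_cyclic c
  rw [LinearMap.mem_ker, ← hmemI, hgen, ← Module.End.mul_apply, ← map_mul]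
  constructor
  · rintro ⟨A, rfl⟩
    rw [← mul_assoc, mul_comm Q, ← hQ, map_mul, h0, zero_mul, LinearMap.zero_apply]
  · intro h
    have h1 := Stable_ann _ h
    rw [hQ, mul_comm _ Q] at h1
    exact (mul_dvd_mul_iff_left hQ0).mp h1

end Fermat.Agent.S56.Euler.Cyc

end
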